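import Fermat.Agent.S48.Eis.Defs

set_option autoImplicit false

open UpperHalfPlane hiding I
open Complex Real Filter Topology
open scoped MatrixGroups ModularForm Manifold

noncomputable section

namespace Fermat.Agent.S48.Eis

/-- For `ω = lp τ v ≠ 0` and `z + ω ≠ 0`: `1/(z+ω) - 1/ω + z/ω² = z² / (ω² (z+ω))`. -/
theorem zTerm_eq (τ : ℍ) (z : ℂ) (v : Fin 2 → ℤ) (h0 : lp τ v ≠ 0) (h1 : z + lp τ v ≠ 0) :
    zTerm τ z v = z ^ 2 / (lp τ v ^ 2 * (z + lp τ v)) := by
  unfold zTerm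
  field_simp
  ring

theorem eventually_le_norm_add_lp (τ : ℍ) (z : ℂ) :
    ∀ᶠ v : Fin 2 → ℤ in cofinite, 0 < ‖v‖ ∧ EisensteinSeries.r τ * ‖v‖ / 2 ≤ ‖z + lp τ v‖ := by
  have hr := EisensteinSeries.r_pos τ
  have hlarge : ∀ᶠ v : Fin 2 → ℤ in cofinite, 2 * ‖z‖ / EisensteinSeries.r τ + 1 ≤ ‖v‖ := by
    have := tendsto_norm_comp_cofinite_atTop_of_isClosedEmbedding
      (IsClosedEmbedding.id (X := Fin 2 → ℤ))
    exact this.eventually_ge_atTop _
  filter_upwards [hlarge] with v hv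
  have hv0 : v ≠ 0 := by
    rintro rfl
    have : 0 ≤ 2 * ‖z‖ / EisensteinSeries.r τ := by positivity
    simp at hv
    linarith
  have hvpos : 0 < ‖v‖ := norm_pos_iff.mpr hv0
  have h1 : EisensteinSeries.r τ * ‖v‖ ≤ ‖lp τ v‖ := EisensteinSeries.r_mul_max_le τ hv0
  have h2 : 2 * ‖z‖ ≤ EisensteinSeries.r τ * ‖v‖ := by
    have : 2 * ‖z‖ / EisensteinSeries.r τ ≤ ‖v‖ := by linarith
    rw [div_le_iff₀ hr] at this
    linarith
  have h3 : ‖lp τ v‖ - ‖z‖ ≤ ‖z + lp τ v‖ := by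
    have := norm_sub_norm_le (lp τ v) (-z)
    rw [norm_neg, sub_neg_eq_add, add_comm] at this
    exact this
  exact ⟨hvpos, by linarith⟩

/-- `(z + ω_v)⁻¹ = O(‖v‖⁻¹)`.  Proof: `‖ω_v‖ ≥ r τ * ‖v‖` (`EisensteinSeries.r_mul_max_le`), and
`‖z + ω_v‖ ≥ ‖ω_v‖ - ‖z‖ ≥ ‖ω_v‖ / 2` as soon as `r τ * ‖v‖ ≥ 2 ‖z‖`, which holds cofinitely
(compare `EisensteinSeries.isBigO_linear_add_const_vec`, which is the case of an integral shift, and
`EisensteinSeries.isLittleO_const_left_of_properSpace_of_discreteTopology`). -/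
theorem isBigO_inv_add_lp (τ : ℍ) (z : ℂ) :
    (fun v : Fin 2 → ℤ => (z + lp τ v)⁻¹) =O[cofinite] fun v => ‖v‖⁻¹ := by
  have hr := EisensteinSeries.r_pos τ
  refine Asymptotics.IsBigO.of_bound (2 / EisensteinSeries.r τ) ?_
  filter_upwards [eventually_le_norm_add_lp τ z] with v hv
  obtain ⟨hvpos, h4⟩ := hv
  have h5 : 0 < EisensteinSeries.r τ * ‖v‖ / 2 := by positivity
  rw [norm_inv, norm_inv, norm_norm]
  calc ‖z + lp τ v‖⁻¹ ≤ (EisensteinSeries.r τ * ‖v‖ / 2)⁻¹ := inv_anti₀ h5 h4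
    _ = 2 / EisensteinSeries.r τ * ‖v‖⁻¹ := by field_simp

/-- Absolute convergence of the Weierstrass zeta series (for every `z`, lattice points included).
Proof: cofinitely many `v` satisfy `lp τ v ≠ 0` and `z + lp τ v ≠ 0`; there use `zTerm_eq`, then
`EisensteinSeries.summable_of_isBigO_rpow_norm (a := 3)` and `isBigO_inv_add_lp` (three times, twice
with `z = 0`), exactly as in Mathlib's `EisensteinSeries.G2Term_summable`. -/
theorem summable_zTerm (τ : ℍ) (z : ℂ) : Summable (zTerm τ z) := by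
  apply EisensteinSeries.summable_of_isBigO_rpow_norm (a := 3) (by norm_num)
  have hA := isBigO_inv_add_lp τ z
  have hB := isBigO_inv_add_lp τ 0
  have hprod := ((hB.mul hB).mul hA).const_mul_left (z ^ 2)
  have hne : ∀ᶠ v : Fin 2 → ℤ in cofinite, lp τ v ≠ 0 ∧ z + lp τ v ≠ 0 := by
    have hr := EisensteinSeries.r_pos τ
    filter_upwards [eventually_le_norm_add_lp τ z, eventually_le_norm_add_lp τ 0] with v h1 h2
    have h5 : 0 < EisensteinSeries.r τ * ‖v‖ / 2 := by have := h1.1; positivity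
    refine ⟨?_, ?_⟩
    · intro h
      have := h2.2
      rw [zero_add, h, norm_zero] at this
      linarith
    · intro h
      have := h1.2
      rw [h, norm_zero] at this
      linarith
  refine (Asymptotics.IsBigO.congr' hprod ?_ ?_)
  · filter_upwards [hne] with v hv
    rw [zTerm_eq τ z v hv.1 hv.2]
    simp only [zero_add]
    field_simp
  · filter_upwards with v
    rw [show (3 : ℝ) = ((3 : ℕ) : ℝ) by norm_num, Real.rpow_natCast]
    field_simp

end Fermat.Agent.S48.Eis
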