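import Fermat.Agent.S48.Eis.Zeta.Smul

set_option autoImplicit false

open UpperHalfPlane hiding I
open Complex Real Filter Topology
open scoped MatrixGroups ModularForm Manifold

noncomputable section

namespace Fermat.Agent.S48.Eis

/-- `G₂(γτ) = (cτ+d)² G₂(τ) - 2πi c (cτ+d)`: this is Mathlib's
`EisensteinSeries.G2_slash_action` evaluated at `τ` (`ModularForm.SL_slash_apply`,
`EisensteinSeries.D2`). -/
theorem G2_smul (γ : SL(2, ℤ)) (τ : ℍ) :
    EisensteinSeries.G2 (γ • τ) =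
      denom γ τ ^ 2 * EisensteinSeries.G2 τ - 2 * π * I * (γ 1 0 : ℂ) * denom γ τ := by
  have h := congrFun (EisensteinSeries.G2_slash_action γ) τ
  rw [ModularForm.SL_slash_apply] at h
  simp only [Pi.sub_apply, EisensteinSeries.D2] at h
  have hd : denom γ τ ≠ 0 := denom_ne_zero γ τ
  have h2 : EisensteinSeries.G2 (γ • τ) =
      (EisensteinSeries.G2 (γ • τ) * denom γ τ ^ (-(2 : ℤ))) * denom γ τ ^ 2 := by
    rw [zpow_neg]
    have : denom γ τ ^ (2 : ℤ) = denom γ τ ^ 2 := by norm_cast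
    rw [this]
    field_simp
  rw [h2, h]
  field_simp

/-- The transformation law of `K` for ALL `γ ∈ SL₂(ℤ)`: from `wz_smul` and `G2_smul`:
`K(γτ)(z/j) = j wz τ z - (z/j)(j² G₂ τ - 2πi c j) = j K τ z + 2πi c z`. -/
theorem K_smul (γ : SL(2, ℤ)) (τ : ℍ) (z : ℂ) :
    K (γ • τ) (z / denom γ τ) = denom γ τ * K τ z + 2 * π * I * (γ 1 0 : ℂ) * z := by
  have hd : denom γ τ ≠ 0 := denom_ne_zero γ τ
  unfold K
  rw [wz_smul, G2_smul]
  field_simp
  ring

end Fermat.Agent.S48.Eis
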