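import Fermat.Agent.S48.Eis.Defs

set_option autoImplicit false

open UpperHalfPlane hiding I
open Complex Real Filter Topology
open scoped MatrixGroups ModularForm Manifold

noncomputable section

namespace Fermat.Agent.S48.Eis

/-- `ω_v(γτ) = ω_{vγ}(τ) / (cτ+d)`. -/
theorem lp_smul (γ : SL(2, ℤ)) (τ : ℍ) (v : Fin 2 → ℤ) :
    lp (γ • τ) v = lp τ (Matrix.vecMul v (γ : Matrix (Fin 2) (Fin 2) ℤ)) / denom γ τ := by
  have hc := denom_ne_zero γ τ
  simp only [lp, Matrix.vecMul, Matrix.vec2_dotProduct, UpperHalfPlane.specialLinearGroup_apply]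
  have h (a b c d u w : ℂ) (hc : c * τ + d ≠ 0) : u * ((a * τ + b) / (c * τ + d)) + w =
      ((u * a + w * c) * τ + (u * b + w * d)) / (c * τ + d) := by
    rw [eq_div_iff hc, add_mul, mul_assoc, div_mul_cancel₀ _ hc]
    ring
  simpa [denom] using h (hc := hc) ..

theorem zTerm_smul (γ : SL(2, ℤ)) (τ : ℍ) (z : ℂ) (v : Fin 2 → ℤ) :
    zTerm (γ • τ) (z / denom γ τ) v =
      denom γ τ * zTerm τ z (Matrix.vecMul v (γ : Matrix (Fin 2) (Fin 2) ℤ)) := by
  have hc := denom_ne_zero γ τ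
  simp only [zTerm, lp_smul]
  set j := denom γ τ
  set ω := lp τ (Matrix.vecMul v (γ : Matrix (Fin 2) (Fin 2) ℤ))
  rw [← add_div]
  simp only [one_div, inv_div, div_pow]
  by_cases h0 : ω = 0
  · simp [h0]
    field_simp
  · by_cases h1 : z + ω = 0
    · simp [h1]
      field_simp
    · field_simp

/-- The bijection `v ↦ v γ` of `ℤ²`. -/
def vecMulEquiv (γ : SL(2, ℤ)) : (Fin 2 → ℤ) ≃ (Fin 2 → ℤ) where
  toFun v := Matrix.vecMul v (γ : Matrix (Fin 2) (Fin 2) ℤ)
  invFun v := Matrix.vecMul v ((γ⁻¹ : SL(2, ℤ)) : Matrix (Fin 2) (Fin 2) ℤ)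
  left_inv v := by
    simp_rw [Matrix.vecMul_vecMul, ← Matrix.SpecialLinearGroup.coe_mul, mul_inv_cancel,
      Matrix.SpecialLinearGroup.coe_one, Matrix.vecMul_one]
  right_inv v := by
    simp_rw [Matrix.vecMul_vecMul, ← Matrix.SpecialLinearGroup.coe_mul, inv_mul_cancel,
      Matrix.SpecialLinearGroup.coe_one, Matrix.vecMul_one]

/-- Equivariance of the Weierstrass zeta function: reindex the `tsum` by the bijection
`v ↦ v γ` of `ℤ²` (`Equiv.tsum_eq`; inverse `v ↦ v γ⁻¹`; compare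
`EisensteinSeries.gammaSetEquiv` / `Matrix.SpecialLinearGroup.toLin'`), then `tsum_mul_left`
(no summability needed). -/
theorem wz_smul (γ : SL(2, ℤ)) (τ : ℍ) (z : ℂ) :
    wz (γ • τ) (z / denom γ τ) = denom γ τ * wz τ z := by
  simp only [wz, zTerm_smul, tsum_mul_left]
  congr 1
  exact (vecMulEquiv γ).tsum_eq (zTerm τ z)

end Fermat.Agent.S48.Eis
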